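import Fermat.Agent.TwoAdic.RingClass.Exact

/-!
# Series of a multiplicative function on the ideals of a quadratic field, by norm

The coefficient at `n` of the series of `Ψ` is the sum of `Ψ b` over the ideals `b` of norm `n`.
The recursions at split, inert and ramified primes hold in any commutative ring.
-/

set_option autoImplicit false

noncomputable section

open NumberField

namespace Fermat.Agent.TwoAdic.TypeSpace

variable {K : Type*} [Field K] [NumberField K]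

variable (K) in
/-- The ideals of norm `n`. -/
def idealsOfNorm (n : ℕ) : Finset (Ideal (𝓞 K)) :=
  (Ideal.finite_setOfPred_absNorm_eq (S := 𝓞 K) n).toFinset

@[simp]
theorem mem_idealsOfNorm {n : ℕ} {b : Ideal (𝓞 K)} :
    b ∈ idealsOfNorm K n ↔ Ideal.absNorm b = n := Set.Finite.mem_toFinset _

/-- `n ↦ ∑ Ψ b` over the ideals of norm `n`. -/
def idealSeries {R : Type*} [CommSemiring R] (Ψ : Ideal (𝓞 K) →* R) (n : ℕ) : R :=
  ∑ b ∈ idealsOfNorm K n, Ψ b

theorem idealSeries_one {R : Type*} [CommSemiring R] (Ψ : Ideal (𝓞 K) →* R) :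
    idealSeries Ψ 1 = 1 := by
  have h : idealsOfNorm K 1 = {1} := by
    ext b; simp [Ideal.absNorm_eq_one_iff, Ideal.one_eq_top]
  rw [idealSeries, h, Finset.sum_singleton, map_one]

variable {R : Type*} [CommRing R] (Ψ : Ideal (𝓞 K) →* R) {ℓ : ℕ}

/-- Norms divisible by a prime come from ideals divisible by a prime above it. -/
theorem exists_isPrime_dvd_of_dvd_absNorm (hℓ : ℓ.Prime) {b : Ideal (𝓞 K)} (hb : b ≠ ⊥)
    (h : ℓ ∣ Ideal.absNorm b) : ∃ P : Ideal (𝓞 K), P.IsPrime ∧ (ℓ : 𝓞 K) ∈ P ∧ P ∣ b := by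
  induction b using UniqueFactorizationMonoid.induction_on_prime with
  | h₁ => exact absurd Ideal.zero_eq_bot hb
  | h₂ a ha =>
    rw [Ideal.isUnit_iff.mp ha, Ideal.absNorm_top] at h
    exact absurd (Nat.dvd_one.mp h) hℓ.ne_one
  | h₃ a P ha hP ih =>
    rw [map_mul] at h
    rcases hℓ.dvd_mul.mp h with hPd | had
    · have hPp : P.IsPrime := Ideal.isPrime_of_prime hP
      obtain ⟨p, hp⟩ : ∃ p : ℕ, p.Prime ∧ (p : 𝓞 K) ∈ P := by
        by_contra! hno
        have hmem := Ideal.absNorm_mem P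
        have h0 : Ideal.absNorm P ≠ 0 := Ideal.absNorm_eq_zero_iff.not.mpr hP.ne_zero
        generalize Ideal.absNorm P = n at hmem h0
        induction n using induction_on_primes with
        | zero => exact h0 rfl
        | one => exact hPp.ne_top ((Ideal.eq_top_iff_one P).mpr (by simpa using hmem))
        | prime_mul p a hp iha =>
          rw [Nat.cast_mul] at hmem
          rcases hPp.mem_or_mem hmem with h1 | h1
          · exact hno p hp h1
          · exact iha h1 fun ha0 => h0 (by rw [ha0, mul_zero])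
      have hle : Ideal.span {(p : 𝓞 K)} ≤ P := (Ideal.span_singleton_le_iff_mem P).mpr hp.2
      have h1 := hPd.trans (Ideal.absNorm_dvd_absNorm_of_le hle)
      rw [Ideal.absNorm_span_natCast] at h1
      rw [(Nat.prime_dvd_prime_iff_eq hℓ hp.1).mp (hℓ.dvd_of_dvd_pow h1)]
      exact ⟨P, hPp, hp.2, dvd_mul_right P a⟩
    · obtain ⟨Q, hQ, hQℓ, hQd⟩ := ih ha had
      exact ⟨Q, hQ, hQℓ, hQd.mul_left P⟩

variable (h2 : Module.finrank ℚ K = 2)
include h2

theorem absNorm_span_prime (ℓ : ℕ) : Ideal.absNorm (Ideal.span {(ℓ : 𝓞 K)}) = ℓ ^ 2 := by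
  rw [Ideal.absNorm_span_natCast, RingOfIntegers.rank, h2]

/-- A prime of norm `ℓ` has a cofactor of norm `ℓ` in `(ℓ)`. -/
theorem exists_cofactor (hℓ : ℓ.Prime) {P : Ideal (𝓞 K)} (hP : Ideal.absNorm P = ℓ) :
    ∃ P' : Ideal (𝓞 K), Ideal.absNorm P' = ℓ ∧ P * P' = Ideal.span {(ℓ : 𝓞 K)} := by
  have hmem : (ℓ : 𝓞 K) ∈ P := by simpa [hP] using Ideal.absNorm_mem P
  obtain ⟨J, hJ⟩ := Ideal.dvd_iff_le.mpr ((Ideal.span_singleton_le_iff_mem P).mpr hmem)
  refine ⟨J, ?_, hJ.symm⟩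
  have h := congrArg Ideal.absNorm hJ
  rw [absNorm_span_prime h2, map_mul, hP, sq] at h
  exact (mul_left_cancel₀ hℓ.ne_zero h).symm

/-- The three types of primes. -/
theorem prime_cases (hℓ : ℓ.Prime) :
    (Ideal.span {(ℓ : 𝓞 K)}).IsPrime ∨
      ∃ P P' : Ideal (𝓞 K), Ideal.absNorm P = ℓ ∧ Ideal.absNorm P' = ℓ ∧
        P * P' = Ideal.span {(ℓ : 𝓞 K)} := by
  have hne : Ideal.span {(ℓ : 𝓞 K)} ≠ ⊥ := by simp [hℓ.ne_zero]
  obtain ⟨P, hP, hPℓ, hPd⟩ := exists_isPrime_dvd_of_dvd_absNorm hℓ hne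
    (by rw [absNorm_span_prime h2]; exact dvd_pow_self ℓ two_ne_zero)
  have hd := Ideal.absNorm_dvd_absNorm_of_le ((Ideal.span_singleton_le_iff_mem P).mpr hPℓ)
  rw [absNorm_span_prime h2] at hd
  obtain ⟨i, hi, hi'⟩ := (Nat.dvd_prime_pow hℓ).mp hd
  interval_cases i
  · rw [pow_zero, Ideal.absNorm_eq_one_iff] at hi'
    exact absurd hi' hP.ne_top
  · rw [pow_one] at hi'
    obtain ⟨P', hP', h⟩ := exists_cofactor h2 hℓ hi'
    exact Or.inr ⟨P, P', hi', hP', h⟩
  · left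
    obtain ⟨J, hJ⟩ := hPd
    have h := congrArg Ideal.absNorm hJ
    rw [absNorm_span_prime h2, map_mul, hi'] at h
    have hJ1 : Ideal.absNorm J = 1 :=
      mul_left_cancel₀ (pow_ne_zero 2 hℓ.ne_zero) (by rw [mul_one]; exact h.symm)
    rwa [hJ, Ideal.absNorm_eq_one_iff.mp hJ1, Ideal.mul_top]

/-- The recursion at a split prime. -/
theorem idealSeries_split (hℓ : ℓ.Prime) {P P' : Ideal (𝓞 K)} (hP : Ideal.absNorm P = ℓ)
    (hP' : Ideal.absNorm P' = ℓ) (hne : P ≠ P') (hmul : P * P' = Ideal.span {(ℓ : 𝓞 K)})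
    {n : ℕ} (hn : n ≠ 0) :
    idealSeries Ψ (ℓ * n) +
        Ψ (Ideal.span {(ℓ : 𝓞 K)}) * (if ℓ ∣ n then idealSeries Ψ (n / ℓ) else 0) =
      (Ψ P + Ψ P') * idealSeries Ψ n := by
  classical
  have hP0 : P ≠ 0 := fun h => hℓ.ne_zero (by simp [← hP, h])
  have hP'0 : P' ≠ 0 := fun h => hℓ.ne_zero (by simp [← hP', h])
  have hPp : P.IsPrime := Ideal.isPrime_of_irreducible_absNorm (hP.symm ▸ hℓ)
  have hP'p : P'.IsPrime := Ideal.isPrime_of_irreducible_absNorm (hP'.symm ▸ hℓ)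
  have hdvd : ∀ Q : Ideal (𝓞 K), Q.IsPrime → (ℓ : 𝓞 K) ∈ Q → Q = P ∨ Q = P' := by
    intro Q hQ hQℓ
    have hle : P * P' ≤ Q := hmul ▸ (Ideal.span_singleton_le_iff_mem Q).mpr hQℓ
    rcases hQ.mul_le.mp hle with h | h
    · exact Or.inl ((hPp.isMaximal hP0).eq_of_le hQ.ne_top h).symm
    · exact Or.inr ((hP'p.isMaximal hP'0).eq_of_le hQ.ne_top h).symm
  let A := idealsOfNorm K n
  have hu : idealsOfNorm K (ℓ * n) = A.image (P * ·) ∪ A.image (P' * ·) := by
    ext b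
    simp only [A, Finset.mem_union, Finset.mem_image, mem_idealsOfNorm]
    constructor
    · intro hb
      have hb0 : b ≠ ⊥ := fun h => mul_ne_zero hℓ.ne_zero hn (by simp [← hb, h])
      obtain ⟨Q, hQ, hQℓ, c, rfl⟩ :=
        exists_isPrime_dvd_of_dvd_absNorm hℓ hb0 (hb ▸ dvd_mul_right ℓ n)
      rw [map_mul] at hb
      rcases hdvd Q hQ hQℓ with rfl | rfl
      · exact Or.inl ⟨c, mul_left_cancel₀ hℓ.ne_zero (hP ▸ hb), rfl⟩
      · exact Or.inr ⟨c, mul_left_cancel₀ hℓ.ne_zero (hP' ▸ hb), rfl⟩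
    · rintro (⟨c, hc, rfl⟩ | ⟨c, hc, rfl⟩) <;> simp [map_mul, hP, hP', hc]
  have hi : A.image (P * ·) ∩ A.image (P' * ·) =
      if ℓ ∣ n then (idealsOfNorm K (n / ℓ)).image (Ideal.span {(ℓ : 𝓞 K)} * ·) else ∅ := by
    ext b
    simp only [A, Finset.mem_inter, Finset.mem_image, mem_idealsOfNorm]
    constructor
    · rintro ⟨⟨c, hc, rfl⟩, c', hc', he⟩
      have hd : P' ∣ c := by
        rcases ((Ideal.prime_of_isPrime hP'0 hP'p).dvd_mul.mp (Dvd.intro c' he)) with h | h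
        · exact absurd ((hPp.isMaximal hP0).eq_of_le hP'p.ne_top (Ideal.le_of_dvd h)) hne
        · exact h
      obtain ⟨e, rfl⟩ := hd
      rw [map_mul, hP'] at hc
      rw [if_pos (hc ▸ dvd_mul_right ℓ _), Finset.mem_image]
      refine ⟨e, ?_, by rw [← hmul, mul_assoc]⟩
      rw [mem_idealsOfNorm, ← hc, Nat.mul_div_cancel_left _ hℓ.pos]
    · split_ifs with hdn
      · simp only [Finset.mem_image, mem_idealsOfNorm]
        rintro ⟨e, he, rfl⟩
        refine ⟨⟨P' * e, ?_, by rw [← hmul, mul_assoc]⟩, P * e, ?_,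
          by rw [← hmul]; ring⟩
        · rw [map_mul, hP', he, Nat.mul_div_cancel' hdn]
        · rw [map_mul, hP, he, Nat.mul_div_cancel' hdn]
      · simp
  have h := Finset.sum_union_inter (s₁ := A.image (P * ·)) (s₂ := A.image (P' * ·)) (f := Ψ)
  rw [← hu, hi] at h
  rw [Finset.sum_image (fun x _ y _ e => mul_left_cancel₀ hP0 e),
    Finset.sum_image (fun x _ y _ e => mul_left_cancel₀ hP'0 e)] at h
  simp only [map_mul, ← Finset.mul_sum] at h
  rw [add_mul]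
  simp only [idealSeries] at h ⊢
  rw [← h]
  congr 1
  split_ifs with hdn
  · rw [Finset.sum_image fun x _ y _ e =>
      mul_left_cancel₀ (show Ideal.span {(ℓ : 𝓞 K)} ≠ 0 by simp [hℓ.ne_zero]) e, Finset.mul_sum]
    simp
  · simp

/-- The recursion at an inert prime. -/
theorem idealSeries_inert (hℓ : ℓ.Prime) (hp : (Ideal.span {(ℓ : 𝓞 K)}).IsPrime)
    {n : ℕ} (hn : n ≠ 0) :
    idealSeries Ψ (ℓ * n) =
      Ψ (Ideal.span {(ℓ : 𝓞 K)}) * (if ℓ ∣ n then idealSeries Ψ (n / ℓ) else 0) := by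
  classical
  set L := Ideal.span {(ℓ : 𝓞 K)}
  have hL0 : L ≠ 0 := by simp [L, hℓ.ne_zero]
  have h : idealsOfNorm K (ℓ * n) =
      if ℓ ∣ n then (idealsOfNorm K (n / ℓ)).image (L * ·) else ∅ := by
    ext b
    simp only [mem_idealsOfNorm]
    constructor
    · intro hb
      have hb0 : b ≠ ⊥ := fun h => mul_ne_zero hℓ.ne_zero hn (by simp [← hb, h])
      obtain ⟨Q, hQ, hQℓ, c, rfl⟩ :=
        exists_isPrime_dvd_of_dvd_absNorm hℓ hb0 (hb ▸ dvd_mul_right ℓ n)
      have hQL : L = Q := (hp.isMaximal hL0).eq_of_le hQ.ne_top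
        ((Ideal.span_singleton_le_iff_mem Q).mpr hQℓ)
      subst hQL
      rw [map_mul, absNorm_span_prime h2, sq, mul_assoc] at hb
      have hb' := mul_left_cancel₀ hℓ.ne_zero hb
      rw [if_pos (hb' ▸ dvd_mul_right ℓ _), Finset.mem_image]
      exact ⟨c, by rw [mem_idealsOfNorm, ← hb', Nat.mul_div_cancel_left _ hℓ.pos], rfl⟩
    · split_ifs with hdn
      · simp only [Finset.mem_image, mem_idealsOfNorm]
        rintro ⟨c, hc, rfl⟩
        rw [map_mul, absNorm_span_prime h2, hc, sq, mul_assoc, Nat.mul_div_cancel' hdn]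
      · simp
  rw [idealSeries, h]
  split_ifs with hdn
  · rw [Finset.sum_image fun x _ y _ e => mul_left_cancel₀ hL0 e, idealSeries, Finset.mul_sum]
    simp
  · simp

omit h2 in
/-- The recursion at a ramified prime. -/
theorem idealSeries_ramified (hℓ : ℓ.Prime) {P : Ideal (𝓞 K)} (hP : Ideal.absNorm P = ℓ)
    (hmul : P * P = Ideal.span {(ℓ : 𝓞 K)}) {n : ℕ} (hn : n ≠ 0) :
    idealSeries Ψ (ℓ * n) = Ψ P * idealSeries Ψ n := by
  classical
  have hP0 : P ≠ 0 := fun h => hℓ.ne_zero (by simp [← hP, h])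
  have hPp : P.IsPrime := Ideal.isPrime_of_irreducible_absNorm (hP.symm ▸ hℓ)
  have h : idealsOfNorm K (ℓ * n) = (idealsOfNorm K n).image (P * ·) := by
    ext b
    simp only [Finset.mem_image, mem_idealsOfNorm]
    constructor
    · intro hb
      have hb0 : b ≠ ⊥ := fun h => mul_ne_zero hℓ.ne_zero hn (by simp [← hb, h])
      obtain ⟨Q, hQ, hQℓ, c, rfl⟩ :=
        exists_isPrime_dvd_of_dvd_absNorm hℓ hb0 (hb ▸ dvd_mul_right ℓ n)
      have hle : P * P ≤ Q := hmul ▸ (Ideal.span_singleton_le_iff_mem Q).mpr hQℓ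
      have hQP : P = Q :=
        (hPp.isMaximal hP0).eq_of_le hQ.ne_top ((hQ.mul_le.mp hle).elim id id)
      subst hQP
      rw [map_mul, hP] at hb
      exact ⟨c, mul_left_cancel₀ hℓ.ne_zero hb, rfl⟩
    · rintro ⟨c, hc, rfl⟩
      rw [map_mul, hP, hc]
  rw [idealSeries, h, Finset.sum_image fun x _ y _ e => mul_left_cancel₀ hP0 e, idealSeries,
    Finset.mul_sum]
  simp

end Fermat.Agent.TwoAdic.TypeSpace
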